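/-
S19lib / H2 / SimpleZero  (helper9, Project FF, sub-lemma for P4 "simple zero")

For a configuration `T : TriData a b c` with `a`, `b` disjoint from `c`, the reduced section
`s̄₀ = red s₀` has a *simple zero* at each centre `Q̄ᶜᵢ` of the third family:

  `(c.Qb i).ord (D.redF T.s0) = 1`.

Proof: `div s₀ = E_a + E_b + E_c - B`, so `div s̄₀ = r_* div s₀ = Ē_a + Ē_b + Ē_c - r_* B`; evaluate at
`Q̄ᶜᵢ`: the `a`, `b` terms vanish (disjointness), the `c` term is `1` (injectivity of `c.Qb`), and
`r_* B` vanishes there because `B` is trivial on the disc of `Q̄ᶜᵢ`.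
-/
import Mathlib
import Fermat.Agent.S19lib.B.Tri

set_option autoImplicit false
set_option linter.unusedSectionVars false

noncomputable section

namespace Fermat.Agent.S19lib.H2

open AlgebraicCurve
open Fermat.Agent.S18lib Fermat.Agent.S19lib.C Fermat.Agent.S19lib.Geom Fermat.Agent.S19lib.B

variable {L : Type*} [Field L] {A : ValuationSubring L}
variable {F : Type*} [Field F] [Algebra L F]
variable {Fk : Type*} [Field Fk] [Algebra (IsLocalRing.ResidueField A) Fk]
variable [HasPrincipalDivisors L F] [HasPrincipalDivisors (IsLocalRing.ResidueField A) Fk]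
variable {D : RedDatum A F Fk} {G : Type*} [Group G]

local notation "k" => IsLocalRing.ResidueField A

/-- the push-forward of a divisor vanishes at `Q` if the divisor is trivial on the disc of `Q` -/
theorem mapDomain_apply_eq_zero_of_disc {α β : Type*} (r : α → β) (E : α →₀ ℤ) (Q : β)
    (h : ∀ P, r P = Q → E P = 0) : Finsupp.mapDomain r E Q = 0 := by
  classical
  rw [Finsupp.mapDomain, Finsupp.sum_apply, Finsupp.sum]
  refine Finset.sum_eq_zero fun P _ => ?_
  rw [Finsupp.single_apply]
  split_ifs with hP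
  · exact h P hP
  · rfl

/-- the reduced base divisor of a family at a point outside the family -/
theorem sum_pt_apply_eq_zero {g : ℕ} (Qb : Fin g → Place k Fk) (Q : Place k Fk)
    (h : ∀ j, Qb j ≠ Q) : (∑ j, B.pt (Qb j)) Q = 0 := by
  classical
  rw [Finsupp.finsetSum_apply]
  refine Finset.sum_eq_zero fun j _ => ?_
  rw [Finsupp.single_apply, if_neg (h j)]

/-- the reduced base divisor of a family at one of its own centres -/
theorem sum_pt_apply_self {g : ℕ} (Qb : Fin g → Place k Fk) (hinj : Function.Injective Qb)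
    (i : Fin g) : (∑ j, B.pt (Qb j)) (Qb i) = 1 := by
  classical
  rw [Finsupp.finsetSum_apply, Finset.sum_eq_single i]
  · rw [Finsupp.single_apply, if_pos rfl]
  · intro j _ hj
    rw [Finsupp.single_apply, if_neg (fun h => hj (hinj h))]
  · intro h
    exact absurd (Finset.mem_univ i) h

variable {S : SymData D G} {g : ℕ} {a b c : Fam D S g}

/-- `div s₀ = E_a + E_b + E_c - B` -/
theorem divOf_s0 (T : TriData a b c) : divOf (K := L) T.s0 = a.E + b.E + c.E - T.Bd := by
  ext P
  rw [divOf_apply T.s0_ne, Finsupp.sub_apply, ← T.ord_s0 P]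
  ring

/-- `div s̄₀ = Ē_a + Ē_b + Ē_c - r_* B` -/
theorem divOf_redF_s0 (T : TriData a b c) :
    divOf (K := k) (D.redF T.s0) =
      Fam.Eb a + Fam.Eb b + Fam.Eb c - Finsupp.mapDomain D.r T.Bd := by
  rw [← D.mapDomain_divOf T.red_s0_ne, divOf_s0 T, Finsupp.mapDomain_sub, Finsupp.mapDomain_add,
    Finsupp.mapDomain_add, a.mapDomain_E, b.mapDomain_E, c.mapDomain_E]
  rfl

/-- **simple zero**: the reduced section `s̄₀` vanishes to order exactly one at every centre of the
third family. -/
theorem ord_redF_s0_eq_one (T : TriData a b c) (hac : a.Disjoint c) (hbc : b.Disjoint c)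
    (i : Fin g) : (c.Qb i).ord (D.redF T.s0) = 1 := by
  rw [← divOf_apply T.red_s0_ne, divOf_redF_s0 T, Finsupp.sub_apply, Finsupp.add_apply,
    Finsupp.add_apply, Fam.Eb, Fam.Eb, Fam.Eb,
    sum_pt_apply_eq_zero a.Qb (c.Qb i) (fun j => hac j i),
    sum_pt_apply_eq_zero b.Qb (c.Qb i) (fun j => hbc j i),
    sum_pt_apply_self c.Qb c.inj i,
    mapDomain_apply_eq_zero_of_disc D.r T.Bd (c.Qb i) (fun P hP => T.B_disc_c P i hP)]
  ring

/-- the same at the centres of the first family (rotate the configuration) -/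
theorem ord_redF_s0_eq_one_a (T : TriData a b c) (hab : a.Disjoint b) (hac : a.Disjoint c)
    (i : Fin g) : (a.Qb i).ord (D.redF T.s0) = 1 :=
  ord_redF_s0_eq_one T.rotate (fun j l h => hab l j h.symm) (fun j l h => hac l j h.symm) i

/-- the same at the centres of the second family -/
theorem ord_redF_s0_eq_one_b (T : TriData a b c) (hab : a.Disjoint b) (hbc : b.Disjoint c)
    (i : Fin g) : (b.Qb i).ord (D.redF T.s0) = 1 :=
  ord_redF_s0_eq_one T.rotate.rotate (fun j l h => hbc l j h.symm) hab i

end Fermat.Agent.S19lib.H2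

end
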